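import Fermat.Agent.Lib.FFSep280.Local
import Fermat.Agent.Lib.RR.H560.Hpd
import Fermat.Prelude.Def_AlgebraicCurve_Correspondence

/-!
# Lib/FFSep280 — fundamental identity and norm formula for finite SEPARABLE extensions of
# function fields, in ANY characteristic  (helper280; port of `Lib/FF398/Global.lean`)

`K` a field, `F'/F` a finite separable extension of fields over `K`, all places of `F'` of
degree one (e.g. `K` algebraically closed and `F'` finite over `K(x')`).  No assumption on the
characteristic: the hypothesis `[CharZero F]` of `Lib/FF398` and `Lib/FF` is replaced by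
`[Algebra.IsSeparable F F']`.

* `sumRamificationInertia`, `fundamentalIdentity` : `∑_{w | v} e(w|v) f(w|v) = [F' : F]`;
* `pushforwardNormFormula` : `N_* div(g) = div(N_{F'/F} g)`  (Prelude `Divisor.PushforwardNormFormula`);
* `sum_ord_eq_ord_norm` (in `Local.lean`) : `∑_{w | v} ord_w g = ord_v (N_{F'/F} g)`;
* `…_of_isAlgClosed` : the same for `K` algebraically closed of any characteristic and `F'` finite
  over `K(x')`, with no further hypothesis (degrees one from `S24.FF.deg_eq_one`, principal
  divisors from `Lib.RR.H560.hasPrincipalDivisors`).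

Intended use: the special fibre `F_k / k(x̄)` (characteristic `ℓ`) in the conservation law (FC) of
S37-RED / S18, where separability comes from the `q`-expansion (`ord_q x̄ = -1`).
-/

set_option autoImplicit false
set_option linter.unusedSectionVars false

open AlgebraicCurve IsDedekindDomain IntermediateField

namespace Fermat.Agent.Lib.FFSep280

section Relative

variable {K F F' : Type*} [Field K] [Field F] [Field F'] [Algebra K F] [Algebra K F']
  [Algebra F F'] [IsScalarTower K F F'] [FiniteDimensional F F'] [Algebra.IsSeparable F F']
  [HasPrincipalDivisors K F']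

/-- **Fundamental identity** `∑_{w | v} e(w|v) f(w|v) = [F' : F]` when all places of `F'` have
degree one (finite separable extension, any characteristic). -/
theorem sumRamificationInertia (hdeg' : ∀ w : Place K F', w.deg = 1) :
    SumRamificationInertia K F F' where
  sum_ramificationIndex_mul_inertiaDeg v := by
    rw [← sum_ramificationIndex v hdeg' (v.fiber F') (fun w => Place.mem_fiber)]
    refine Finset.sum_congr rfl fun w _ => ?_
    rw [inertiaDeg_eq_one hdeg' w]
    simp

theorem fundamentalIdentity (hdeg' : ∀ w : Place K F', w.deg = 1) :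
    FundamentalIdentity K F F' :=
  haveI := sumRamificationInertia (F := F) hdeg'
  inferInstance

/-- **Norm formula** `N_* div(g) = div(N_{F'/F} g)` when all places of `F'` have degree one
(finite separable extension, any characteristic). -/
theorem pushforwardNormFormula (hdeg' : ∀ w : Place K F', w.deg = 1) :
    Divisor.PushforwardNormFormula K F F' := by
  classical
  intro g hg D hD v
  rw [Divisor.pushforward_apply, ← sum_ord_eq_ord_norm v hdeg' (v.fiber F')
    (fun w => Place.mem_fiber) g hg]
  rw [← Finset.sum_filter]
  refine Finset.sum_subset_zero_on_sdiff ?_ ?_ ?_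
  · intro w hw
    rw [Finset.mem_filter] at hw
    exact Place.mem_fiber.mpr hw.2
  · intro w hw
    rw [Finset.mem_sdiff, Finset.mem_filter, Place.mem_fiber] at hw
    have hnot : w ∉ D.support := fun h => hw.2 ⟨h, hw.1⟩
    rw [Finsupp.notMem_support_iff, hD] at hnot
    exact hnot
  · intro w hw
    rw [hD, inertiaDeg_eq_one hdeg' w]
    simp

end Relative

section AlgClosed

variable {K F F' : Type*} [Field K] [Field F] [Field F'] [Algebra K F] [Algebra K F']
  [Algebra F F'] [IsScalarTower K F F'] [FiniteDimensional F F'] [Algebra.IsSeparable F F']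
  [IsAlgClosed K]

/-- **Local norm formula**, `K` algebraically closed of any characteristic, `F'` finite over
`K(x')`, `F'/F` finite separable: `∑_{w | v} ord_w g = ord_v (N_{F'/F} g)`. -/
theorem sum_ord_eq_ord_norm_of_isAlgClosed {x' : F'} (hx' : Transcendental K x')
    [FiniteDimensional K⟮x'⟯ F'] (v : Place K F)
    (s : Finset (Place K F')) (hs : ∀ w, w ∈ s ↔ w.restrict F = v)
    (g : F') (hg : g ≠ 0) :
    ∑ w ∈ s, w.ord g = v.ord (Algebra.norm F g) :=
  sum_ord_eq_ord_norm v (fun w => Fermat.Agent.S24.FF.deg_eq_one w hx') s hs g hg

/-- **Local fundamental identity**, `K` algebraically closed of any characteristic: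
`∑_{w | v} e(w|v) = [F' : F]`. -/
theorem sum_ramificationIndex_of_isAlgClosed {x' : F'} (hx' : Transcendental K x')
    [FiniteDimensional K⟮x'⟯ F'] (v : Place K F)
    (s : Finset (Place K F')) (hs : ∀ w, w ∈ s ↔ w.restrict F = v) :
    ∑ w ∈ s, (w.ramificationIndex F : ℤ) = (Module.finrank F F' : ℤ) :=
  sum_ramificationIndex v (fun w => Fermat.Agent.S24.FF.deg_eq_one w hx') s hs

/-- Prelude `Divisor.PushforwardNormFormula` for `K` algebraically closed of any
characteristic, `F'` finite over `K(x')`, `F'/F` finite separable. -/
theorem pushforwardNormFormula_of_isAlgClosed {x' : F'} (hx' : Transcendental K x')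
    [FiniteDimensional K⟮x'⟯ F'] :
    haveI := Fermat.Agent.Lib.RR.H560.hasPrincipalDivisors (K := K) x' hx'
    Divisor.PushforwardNormFormula K F F' :=
  haveI := Fermat.Agent.Lib.RR.H560.hasPrincipalDivisors (K := K) x' hx'
  pushforwardNormFormula (fun w => Fermat.Agent.S24.FF.deg_eq_one w hx')

/-- Prelude `SumRamificationInertia` for `K` algebraically closed of any characteristic. -/
theorem sumRamificationInertia_of_isAlgClosed {x' : F'} (hx' : Transcendental K x')
    [FiniteDimensional K⟮x'⟯ F'] :
    haveI := Fermat.Agent.Lib.RR.H560.hasPrincipalDivisors (K := K) x' hx'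
    SumRamificationInertia K F F' :=
  haveI := Fermat.Agent.Lib.RR.H560.hasPrincipalDivisors (K := K) x' hx'
  sumRamificationInertia (fun w => Fermat.Agent.S24.FF.deg_eq_one w hx')

end AlgClosed

end Fermat.Agent.Lib.FFSep280
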